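/-
S05 glue: basic facts about elements of the inertia subgroup of a valuation subring.
-/
import Mathlib
import Fermat.Prelude.Def_FLTPrelim_Ramification

set_option autoImplicit false

namespace S05H5

open ValuationSubring
open scoped Pointwise

variable {K L : Type*} [Field K] [Field L] [Algebra K L]

/-- An element of the decomposition subgroup maps `A` into `A`. -/
theorem decomp_apply_mem (A : ValuationSubring L) (σ : L ≃ₐ[K] L)
    (hσ : σ ∈ A.decompositionSubgroup K) {a : L} (ha : a ∈ A) : σ a ∈ A := by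
  have h : σ • A = A := hσ
  have : σ a ∈ σ • A := ⟨a, ha, rfl⟩
  rw [h] at this
  exact this

/-- An element of the decomposition subgroup maps `A` onto `A`. -/
theorem decomp_apply_mem_iff (A : ValuationSubring L) (σ : L ≃ₐ[K] L)
    (hσ : σ ∈ A.decompositionSubgroup K) {a : L} : σ a ∈ A ↔ a ∈ A := by
  constructor
  · intro h
    have hinv : σ⁻¹ ∈ A.decompositionSubgroup K := Subgroup.inv_mem _ hσ
    have := decomp_apply_mem A σ⁻¹ hinv h
    simpa using this
  · exact decomp_apply_mem A σ hσ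

theorem inertiaIn_mem_decomp (A : ValuationSubring L) (σ : L ≃ₐ[K] L)
    (hσ : σ ∈ A.inertiaSubgroupIn K) : σ ∈ A.decompositionSubgroup K := by
  obtain ⟨τ, _, rfl⟩ := hσ
  exact τ.2

/-- An element of the inertia subgroup acts trivially modulo the maximal ideal. -/
theorem inertiaIn_sub_mem_nonunits (A : ValuationSubring L) (σ : L ≃ₐ[K] L)
    (hσ : σ ∈ A.inertiaSubgroupIn K) {a : L} (ha : a ∈ A) : σ a - a ∈ A.nonunits := by
  obtain ⟨τ, hτ, rfl⟩ := hσ
  have hker : MulSemiringAction.toRingAut (A.decompositionSubgroup K)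
      (IsLocalRing.ResidueField A) τ = 1 := hτ
  have h1 : τ • (IsLocalRing.residue A ⟨a, ha⟩) = IsLocalRing.residue A ⟨a, ha⟩ := by
    have := congrArg (fun f : RingAut (IsLocalRing.ResidueField A) =>
      f (IsLocalRing.residue A ⟨a, ha⟩)) hker
    simpa using this
  have h2 : IsLocalRing.residue A (τ • (⟨a, ha⟩ : A)) = IsLocalRing.residue A ⟨a, ha⟩ := h1
  have h3 : IsLocalRing.residue A ((τ • (⟨a, ha⟩ : A)) - ⟨a, ha⟩) = 0 := by
    rw [map_sub, h2, sub_self]
  rw [IsLocalRing.residue_eq_zero_iff] at h3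
  exact (A.mem_nonunits_iff_exists_mem_maximalIdeal).2 ⟨_, h3⟩

/-- Elements of the inertia subgroup preserve the valuation subring (iff version). -/
theorem inertiaIn_apply_mem_iff (A : ValuationSubring L) (σ : L ≃ₐ[K] L)
    (hσ : σ ∈ A.inertiaSubgroupIn K) {a : L} : σ a ∈ A ↔ a ∈ A :=
  decomp_apply_mem_iff A σ (inertiaIn_mem_decomp A σ hσ)

/-- Elements of the decomposition subgroup preserve the nonunits. -/
theorem decomp_apply_mem_nonunits_iff (A : ValuationSubring L) (σ : L ≃ₐ[K] L)
    (hσ : σ ∈ A.decompositionSubgroup K) {a : L} : σ a ∈ A.nonunits ↔ a ∈ A.nonunits := by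
  rw [A.mem_nonunits_iff_or, A.mem_nonunits_iff_or]
  have h1 : σ a = 0 ↔ a = 0 := by simp
  have h2 : (σ a)⁻¹ ∈ A ↔ a⁻¹ ∈ A := by
    rw [← map_inv₀]
    exact decomp_apply_mem_iff A σ hσ
  rw [h1, h2]

end S05H5
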