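/-
S05 (B): two integral points of a Weierstrass curve with integral coefficients which have the
same nonsingular reduction differ by an element of the kernel of reduction.
-/
import Mathlib
import Fermat.Agent.S05.H65.Sym

set_option autoImplicit false

namespace S05H5

open WeierstrassCurve WeierstrassCurve.Affine S05H65

variable {K : Type*} [Field K] {Γ₀ : Type*} [LinearOrderedCommGroupWithZero Γ₀]

section val

variable (v : Valuation K Γ₀)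

theorem vlt_add {a b : K} (ha : v a < 1) (hb : v b < 1) : v (a + b) < 1 :=
  v.map_add_lt ha hb

theorem vlt_sub {a b : K} (ha : v a < 1) (hb : v b < 1) : v (a - b) < 1 :=
  v.map_sub_lt ha hb

theorem vlt_neg {a : K} (ha : v a < 1) : v (-a) < 1 := by rwa [Valuation.map_neg]

theorem vlt_mul_left {a b : K} (ha : v a ≤ 1) (hb : v b < 1) : v (a * b) < 1 := by
  rw [map_mul]
  calc v a * v b ≤ 1 * v b := mul_le_mul_left ha _
    _ = v b := one_mul _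
    _ < 1 := hb

theorem vlt_mul_right {a b : K} (ha : v a < 1) (hb : v b ≤ 1) : v (a * b) < 1 := by
  rw [mul_comm]; exact vlt_mul_left v hb ha

theorem vle_add {a b : K} (ha : v a ≤ 1) (hb : v b ≤ 1) : v (a + b) ≤ 1 :=
  v.map_add_le ha hb

theorem vle_sub {a b : K} (ha : v a ≤ 1) (hb : v b ≤ 1) : v (a - b) ≤ 1 :=
  v.map_sub_le ha hb

theorem vle_neg {a : K} (ha : v a ≤ 1) : v (-a) ≤ 1 := by rwa [Valuation.map_neg]

theorem vle_mul {a b : K} (ha : v a ≤ 1) (hb : v b ≤ 1) : v (a * b) ≤ 1 := by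
  rw [map_mul]; exact mul_le_one' ha hb

theorem vle_pow {a : K} (ha : v a ≤ 1) (n : ℕ) : v (a ^ n) ≤ 1 := by
  rw [map_pow]; exact pow_le_one' ha n

theorem vle_natCast (n : ℕ) : v (n : K) ≤ 1 := by
  induction n with
  | zero => simp
  | succ k ih => rw [Nat.cast_succ]; exact vle_add v ih (by simp)

theorem vle_ofNat (n : ℕ) [n.AtLeastTwo] : v (OfNat.ofNat n : K) ≤ 1 := by
  have := vle_natCast v n
  rwa [← Nat.cast_ofNat (R := K)]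

theorem vle_intCast (n : ℤ) : v (n : K) ≤ 1 := by
  cases n with
  | ofNat k => simpa using vle_natCast v k
  | negSucc k =>
    rw [Int.cast_negSucc, Valuation.map_neg]
    exact vle_natCast v (k + 1)

theorem vle_of_lt {a : K} (ha : v a < 1) : v a ≤ 1 := le_of_lt ha

end val

/-- If `1 < v ℓ` and the other data are integral, then `1 < v (ℓ ^ 2 + a₁ ℓ - a₂ - x₁ - x₂)`. -/
theorem one_lt_v_addX (v : Valuation K Γ₀) (W : Affine K) (ha₁ : v W.a₁ ≤ 1) (ha₂ : v W.a₂ ≤ 1)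
    {x₁ x₂ ℓ : K} (hx₁ : v x₁ ≤ 1) (hx₂ : v x₂ ≤ 1) (hℓ : 1 < v ℓ) : 1 < v (W.addX x₁ x₂ ℓ) := by
  by_contra hX
  rw [not_lt] at hX
  have h1 : v (ℓ * (ℓ + W.a₁)) ≤ 1 := by
    have : ℓ * (ℓ + W.a₁) = W.addX x₁ x₂ ℓ + (W.a₂ + x₁ + x₂) := by
      simp only [Affine.addX]; ring
    rw [this]
    exact vle_add v hX (vle_add v (vle_add v ha₂ hx₁) hx₂)
  have h2 : v (ℓ + W.a₁) = v ℓ :=
    Valuation.map_add_eq_of_lt_left _ (lt_of_le_of_lt ha₁ hℓ)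
  rw [map_mul, h2] at h1
  have h4 : 1 < v ℓ * v ℓ := by
    calc (1 : Γ₀) = 1 * 1 := (mul_one 1).symm
      _ < v ℓ * v ℓ := mul_lt_mul'' hℓ hℓ zero_le_one zero_le_one
  exact absurd h1 (not_le.2 h4)


/-- The key slope estimate for (B), chord case. -/
theorem one_lt_v_slope_chord (v : Valuation K Γ₀) (W : Affine K)
    (ha₁ : v W.a₁ ≤ 1) (ha₂ : v W.a₂ ≤ 1)
    {x₁ y₁ x₂ y₂ : K} (h₁ : W.Equation x₁ y₁) (h₂ : W.Equation x₂ y₂)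
    (hx₁ : v x₁ ≤ 1) (hx₂ : v x₂ ≤ 1)
    (hx : v (x₁ - x₂) < 1) (hy : v (y₁ - y₂) < 1) (hne : x₁ ≠ x₂)
    (hns : ¬ (v (W.a₁ * y₁ - (3 * x₁ ^ 2 + 2 * W.a₂ * x₁ + W.a₄)) < 1 ∧
      v (2 * y₁ + W.a₁ * x₁ + W.a₃) < 1)) :
    1 < v ((y₁ - W.negY x₂ y₂) / (x₁ - x₂)) := by
  by_contra hℓ
  rw [not_lt] at hℓ
  have hd : x₁ - x₂ ≠ 0 := sub_ne_zero.mpr hne
  set ℓ := (y₁ - W.negY x₂ y₂) / (x₁ - x₂) with hℓdef
  have hℓmul : ℓ * (x₁ - x₂) = y₁ - W.negY x₂ y₂ := by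
    rw [hℓdef]; field_simp
  -- `F_y(P₁)` is small
  have hFy : v (2 * y₁ + W.a₁ * x₁ + W.a₃) < 1 := by
    have e : 2 * y₁ + W.a₁ * x₁ + W.a₃ = ℓ * (x₁ - x₂) + (y₁ - y₂) + W.a₁ * (x₁ - x₂) := by
      rw [hℓmul]; simp only [Affine.negY]; ring
    rw [e]
    exact vlt_add v (vlt_add v (vlt_mul_left v hℓ hx) hy) (vlt_mul_left v ha₁ hx)
  -- the other expression for the slope
  have hD : v ((y₁ - y₂) + W.a₁ * (x₁ - x₂)) < 1 :=
    vlt_add v hy (vlt_mul_left v ha₁ hx)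
  have hkey : ℓ * ((y₁ - y₂) + W.a₁ * (x₁ - x₂)) =
      x₁ ^ 2 + x₁ * x₂ + x₂ ^ 2 + W.a₂ * (x₁ + x₂) + W.a₄ - W.a₁ * W.negY x₂ y₂ := by
    rw [Affine.equation_iff] at h₁ h₂
    have : (y₁ - W.negY x₂ y₂) * ((y₁ - y₂) + W.a₁ * (x₁ - x₂)) =
        (x₁ - x₂) * (x₁ ^ 2 + x₁ * x₂ + x₂ ^ 2 + W.a₂ * (x₁ + x₂) + W.a₄
          - W.a₁ * W.negY x₂ y₂) := by
      simp only [Affine.negY]
      linear_combination h₁ - h₂
    rw [hℓdef, div_mul_eq_mul_div, this, mul_comm, mul_div_assoc, div_self hd, mul_one]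
  have hN : v (x₁ ^ 2 + x₁ * x₂ + x₂ ^ 2 + W.a₂ * (x₁ + x₂) + W.a₄ - W.a₁ * W.negY x₂ y₂) < 1 := by
    rw [← hkey]; exact vlt_mul_left v hℓ hD
  have hFx : v (W.a₁ * y₁ - (3 * x₁ ^ 2 + 2 * W.a₂ * x₁ + W.a₄)) < 1 := by
    have e : W.a₁ * y₁ - (3 * x₁ ^ 2 + 2 * W.a₂ * x₁ + W.a₄) =
        -(x₁ ^ 2 + x₁ * x₂ + x₂ ^ 2 + W.a₂ * (x₁ + x₂) + W.a₄ - W.a₁ * W.negY x₂ y₂)
        + (-(x₁ - x₂)) * (x₂ + 2 * x₁) + W.a₂ * (-(x₁ - x₂)) + W.a₁ * (ℓ * (x₁ - x₂)) := by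
      rw [hℓmul]; simp only [Affine.negY]; ring
    rw [e]
    refine vlt_add v (vlt_add v (vlt_add v (vlt_neg v hN) ?_) ?_) ?_
    · exact vlt_mul_right v (vlt_neg v hx)
        (vle_add v hx₂ (vle_mul v (vle_ofNat v 2) hx₁))
    · exact vlt_mul_left v ha₂ (vlt_neg v hx)
    · exact vlt_mul_left v ha₁ (vlt_mul_left v hℓ hx)
  exact hns ⟨hFx, hFy⟩

/-- The key slope estimate for (B), tangent case. -/
theorem one_lt_v_slope_tangent (v : Valuation K Γ₀) (W : Affine K)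
    {x₁ y₁ : K} (hFy : v (y₁ - W.negY x₁ y₁) < 1) (hFy0 : y₁ - W.negY x₁ y₁ ≠ 0)
    (hns : ¬ (v (W.a₁ * y₁ - (3 * x₁ ^ 2 + 2 * W.a₂ * x₁ + W.a₄)) < 1 ∧
      v (2 * y₁ + W.a₁ * x₁ + W.a₃) < 1)) :
    1 < v ((3 * x₁ ^ 2 + 2 * W.a₂ * x₁ + W.a₄ - W.a₁ * y₁) / (y₁ - W.negY x₁ y₁)) := by
  have e : y₁ - W.negY x₁ y₁ = 2 * y₁ + W.a₁ * x₁ + W.a₃ := by
    simp only [Affine.negY]; ring
  have hFx : ¬ v (W.a₁ * y₁ - (3 * x₁ ^ 2 + 2 * W.a₂ * x₁ + W.a₄)) < 1 := by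
    intro h; exact hns ⟨h, e ▸ hFy⟩
  rw [not_lt] at hFx
  have hnum : 1 ≤ v (3 * x₁ ^ 2 + 2 * W.a₂ * x₁ + W.a₄ - W.a₁ * y₁) := by
    rw [← Valuation.map_neg]
    convert hFx using 2
    ring
  have hpos : 0 < v (y₁ - W.negY x₁ y₁) := by
    rw [Valuation.pos_iff]; exact hFy0
  rw [map_div₀, lt_div_iff₀ hpos, one_mul]
  exact lt_of_lt_of_le hFy hnum

/-- (B): two integral points with the same nonsingular reduction differ by an element of the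
kernel of reduction. -/
theorem sub_eq_zero_or_one_lt_v_px [DecidableEq K] (v : Valuation K Γ₀) (W : Affine K)
    (ha₁ : v W.a₁ ≤ 1) (ha₂ : v W.a₂ ≤ 1)
    {x₁ y₁ x₂ y₂ : K} (h₁ : W.Nonsingular x₁ y₁) (h₂ : W.Nonsingular x₂ y₂)
    (hx₁ : v x₁ ≤ 1) (hx₂ : v x₂ ≤ 1)
    (hx : v (x₁ - x₂) < 1) (hy : v (y₁ - y₂) < 1)
    (hns : ¬ (v (W.a₁ * y₁ - (3 * x₁ ^ 2 + 2 * W.a₂ * x₁ + W.a₄)) < 1 ∧
      v (2 * y₁ + W.a₁ * x₁ + W.a₃) < 1)) :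
    Point.some x₁ y₁ h₁ - Point.some x₂ y₂ h₂ = 0 ∨
      1 < v (px (Point.some x₁ y₁ h₁ - Point.some x₂ y₂ h₂)) := by
  rw [sub_eq_add_neg, Point.neg_some]
  by_cases hxeq : x₁ = x₂
  · by_cases hyeq : y₁ = W.negY x₂ (W.negY x₂ y₂)
    · left
      exact Point.add_of_Y_eq hxeq hyeq
    · right
      rw [Point.add_of_Y_ne hyeq, px_some]
      have hy12 : y₁ ≠ y₂ := by
        rw [Affine.negY_negY] at hyeq; exact hyeq
      have hy1 : y₁ = W.negY x₂ y₂ := by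
        rcases Affine.Y_eq_of_X_eq h₁.1 h₂.1 hxeq with h | h
        · exact absurd h hy12
        · exact h
      have hneg : W.negY x₁ y₁ = y₂ := by
        rw [hy1, hxeq, Affine.negY_negY]
      rw [Affine.slope_of_Y_ne hxeq hyeq]
      apply one_lt_v_addX v W ha₁ ha₂ hx₁ hx₂
      apply one_lt_v_slope_tangent v W _ _ hns
      · rw [hneg]; exact hy
      · rw [hneg]; exact sub_ne_zero.mpr hy12
  · right
    rw [Point.add_of_X_ne hxeq, px_some, Affine.slope_of_X_ne hxeq]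
    apply one_lt_v_addX v W ha₁ ha₂ hx₁ hx₂
    exact one_lt_v_slope_chord v W ha₁ ha₂ h₁.1 h₂.1 hx₁ hx₂ hx hy hxeq hns

end S05H5
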