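/-
S05: the Frey curve over a valued field: integrality of the coefficients, nonvanishing of the
discriminant, good reduction away from `abc`.
-/
import Mathlib
import Fermat.Prelude.Def_FLTPrelim_FreyPackage
import Fermat.Agent.Lib.Frey.Basic
import Fermat.Agent.S05.H5.IntVal

set_option autoImplicit false

namespace S05H5

open WeierstrassCurve Fermat.Agent.FreyLib

variable {K : Type*} [Field K] [Algebra ℚ K] {Γ₀ : Type*} [LinearOrderedCommGroupWithZero Γ₀]

/-- The base change of the Frey curve to `K` is the base change of the integral Frey curve. -/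
theorem frey_baseChange_eq_map (P : FreyPackage) :
    (P.freyCurve⁄K) = P.freyCurveInt.map (Int.castRingHom K) := by
  rw [← freyCurveInt_map P]
  show (P.freyCurveInt.map (Int.castRingHom ℚ)).map (algebraMap ℚ K) = _
  rw [WeierstrassCurve.map_map]
  congr 1
  exact RingHom.ext_int _ _

theorem frey_coeff_le_one (P : FreyPackage) (v : Valuation K Γ₀) :
    v (P.freyCurve⁄K).a₁ ≤ 1 ∧ v (P.freyCurve⁄K).a₂ ≤ 1 ∧ v (P.freyCurve⁄K).a₃ ≤ 1 ∧
    v (P.freyCurve⁄K).a₄ ≤ 1 ∧ v (P.freyCurve⁄K).a₆ ≤ 1 := by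
  rw [frey_baseChange_eq_map P]
  simp only [WeierstrassCurve.map_a₁, WeierstrassCurve.map_a₂, WeierstrassCurve.map_a₃,
    WeierstrassCurve.map_a₄, WeierstrassCurve.map_a₆, eq_intCast]
  exact ⟨vle_intCast v _, vle_intCast v _, vle_intCast v _, vle_intCast v _, vle_intCast v _⟩

theorem frey_Δ_eq (P : FreyPackage) :
    (P.freyCurve⁄K).Δ = ((P.freyCurveInt.Δ : ℤ) : K) := by
  rw [frey_baseChange_eq_map P, WeierstrassCurve.map_Δ, eq_intCast]

theorem frey_Δ_ne_zero_K (P : FreyPackage) : (P.freyCurve⁄K).Δ ≠ 0 := by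
  rw [frey_Δ_eq P]
  have hinj : Function.Injective (algebraMap ℚ K) := (algebraMap ℚ K).injective
  have h0 : ((P.freyCurveInt.Δ : ℤ) : ℚ) ≠ 0 := by
    exact_mod_cast freyCurveInt_Δ_ne_zero P
  intro h
  apply h0
  apply hinj
  rw [map_zero, map_intCast]
  exact h

theorem frey_not_v_Δ_lt_one (P : FreyPackage) (v : Valuation K Γ₀) {q : ℕ} (hq : q.Prime)
    (hvq : v (q : K) < 1) (hnd : ¬ (q : ℤ) ∣ P.a * P.b * P.c) : ¬ v (P.freyCurve⁄K).Δ < 1 := by
  rw [frey_Δ_eq P]
  have h : ¬ (q : ℤ) ∣ P.freyCurveInt.Δ := fun h => hnd ((dvd_Δ_iff_dvd_abc P hq).mp h)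
  rw [v_intCast_eq_one v hq hvq h]
  exact lt_irrefl _

end S05H5
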