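/-
S05: an integral point whose reduction is singular forces the discriminant into the maximal
ideal; integrality of the `y`-coordinate of a point with integral `x`-coordinate.
-/
import Mathlib
import Fermat.Agent.S05.H5.RedB

set_option autoImplicit false

namespace S05H5

open WeierstrassCurve WeierstrassCurve.Affine

variable {K : Type*} [Field K] {Γ₀ : Type*} [LinearOrderedCommGroupWithZero Γ₀]

/-- The discriminant lies in the ideal generated by the two partial derivatives at a point of the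
curve (explicit identity). -/
theorem Δ_eq_combination (W : Affine K) {x y : K} (h : W.Equation x y) :
    W.Δ =
      (2 * y + W.a₁ * x + W.a₃) *
        ((W.a₁ ^ 2 + 4 * (W.a₂ + 3 * x)) ^ 2 *
            (W.a₁ * (3 * x ^ 2 + 2 * W.a₂ * x + W.a₄ - W.a₁ * y) -
              (W.a₂ + 3 * x) * (2 * y + W.a₁ * x + W.a₃))
          - 27 * (2 * y + W.a₁ * x + W.a₃) ^ 3
          + 9 * (W.a₁ ^ 2 + 4 * (W.a₂ + 3 * x)) *
              (2 * (3 * x ^ 2 + 2 * W.a₂ * x + W.a₄ - W.a₁ * y) +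
                W.a₁ * (2 * y + W.a₁ * x + W.a₃)) * (2 * y + W.a₁ * x + W.a₃)
          - 8 * W.a₁ ^ 3 * (2 * y + W.a₁ * x + W.a₃) ^ 2)
      + (3 * x ^ 2 + 2 * W.a₂ * x + W.a₄ - W.a₁ * y) *
        ((W.a₁ ^ 2 + 4 * (W.a₂ + 3 * x)) ^ 2 * (3 * x ^ 2 + 2 * W.a₂ * x + W.a₄ - W.a₁ * y)
          - 8 * (8 * (3 * x ^ 2 + 2 * W.a₂ * x + W.a₄ - W.a₁ * y) ^ 2
            + 12 * (3 * x ^ 2 + 2 * W.a₂ * x + W.a₄ - W.a₁ * y) * W.a₁ *
                (2 * y + W.a₁ * x + W.a₃)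
            + 6 * W.a₁ ^ 2 * (2 * y + W.a₁ * x + W.a₃) ^ 2)) := by
  rw [Affine.equation_iff] at h
  have ha₆ : W.a₆ = y ^ 2 + W.a₁ * x * y + W.a₃ * y - (x ^ 3 + W.a₂ * x ^ 2 + W.a₄ * x) := by
    linear_combination -h
  simp only [WeierstrassCurve.Δ, WeierstrassCurve.b₂, WeierstrassCurve.b₄, WeierstrassCurve.b₆,
    WeierstrassCurve.b₈]
  rw [ha₆]
  ring

/-- If an integral point has singular reduction, the discriminant is in the maximal ideal. -/
theorem v_Δ_lt_one_of_singular (v : Valuation K Γ₀) (W : Affine K)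
    (ha₁ : v W.a₁ ≤ 1) (ha₂ : v W.a₂ ≤ 1)
    {x y : K} (h : W.Equation x y) (hx : v x ≤ 1)
    (hFx : v (W.a₁ * y - (3 * x ^ 2 + 2 * W.a₂ * x + W.a₄)) < 1)
    (hFy : v (2 * y + W.a₁ * x + W.a₃) < 1) : v W.Δ < 1 := by
  have hFx' : v (3 * x ^ 2 + 2 * W.a₂ * x + W.a₄ - W.a₁ * y) < 1 := by
    rw [← Valuation.map_neg]
    convert hFx using 2
    ring
  have ha₁' : W.a₁ ∈ v.integer := ha₁
  have ha₂' : W.a₂ ∈ v.integer := ha₂
  have hx' : x ∈ v.integer := hx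
  rw [Δ_eq_combination W h]
  generalize 2 * y + W.a₁ * x + W.a₃ = A3 at hFy ⊢
  generalize 3 * x ^ 2 + 2 * W.a₂ * x + W.a₄ - W.a₁ * y = A4 at hFx' ⊢
  have hA3 : A3 ∈ v.integer := le_of_lt hFy
  have hA4 : A4 ∈ v.integer := le_of_lt hFx'
  have hA2 : W.a₂ + 3 * x ∈ v.integer := by aesop
  generalize W.a₂ + 3 * x = A2 at hA2 ⊢
  have hB2 : W.a₁ ^ 2 + 4 * A2 ∈ v.integer := by aesop
  generalize W.a₁ ^ 2 + 4 * A2 = B2 at hB2 ⊢
  generalize W.a₁ = a1 at ha₁' ⊢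
  clear ha₁ ha₂ hx hFx h ha₂' hx'
  refine vlt_add v (vlt_mul_right v hFy ?_) (vlt_mul_right v hFx' ?_)
  · show _ ∈ v.integer
    have h1 : B2 ^ 2 * (a1 * A4 - A2 * A3) ∈ v.integer := by aesop
    have h2 : 27 * A3 ^ 3 ∈ v.integer := by aesop
    have h3 : 9 * B2 * (2 * A4 + a1 * A3) * A3 ∈ v.integer := by aesop
    have h4 : 8 * a1 ^ 3 * A3 ^ 2 ∈ v.integer := by aesop
    exact Subring.sub_mem _ (Subring.add_mem _ (Subring.sub_mem _ h1 h2) h3) h4
  · show _ ∈ v.integer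
    have h1 : B2 ^ 2 * A4 ∈ v.integer := by aesop
    have h2 : 8 * A4 ^ 2 ∈ v.integer := by aesop
    have h3 : 12 * A4 * a1 * A3 ∈ v.integer := by aesop
    have h4 : 6 * a1 ^ 2 * A3 ^ 2 ∈ v.integer := by aesop
    have h5 : (8 : K) ∈ v.integer := by aesop
    exact Subring.sub_mem _ h1 (Subring.mul_mem _ h5
      (Subring.add_mem _ (Subring.add_mem _ h2 h3) h4))

/-- A point with integral `x`-coordinate on an integral Weierstrass curve has integral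
`y`-coordinate. -/
theorem v_y_le_one (v : Valuation K Γ₀) (W : Affine K)
    (ha₁ : v W.a₁ ≤ 1) (ha₂ : v W.a₂ ≤ 1) (ha₃ : v W.a₃ ≤ 1) (ha₄ : v W.a₄ ≤ 1)
    (ha₆ : v W.a₆ ≤ 1)
    {x y : K} (h : W.Equation x y) (hx : v x ≤ 1) : v y ≤ 1 := by
  by_contra hy
  rw [not_le] at hy
  rw [Affine.equation_iff] at h
  have ha₁' : W.a₁ ∈ v.integer := ha₁
  have ha₂' : W.a₂ ∈ v.integer := ha₂
  have ha₃' : W.a₃ ∈ v.integer := ha₃
  have ha₄' : W.a₄ ∈ v.integer := ha₄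
  have ha₆' : W.a₆ ∈ v.integer := ha₆
  have hx' : x ∈ v.integer := hx
  -- y * (y + a₁ x + a₃) is integral
  have h1 : v (y * (y + (W.a₁ * x + W.a₃))) ≤ 1 := by
    have e : y * (y + (W.a₁ * x + W.a₃)) = x ^ 3 + W.a₂ * x ^ 2 + W.a₄ * x + W.a₆ := by
      linear_combination h
    rw [e]
    show _ ∈ v.integer
    aesop
  have hc : v (W.a₁ * x + W.a₃) ≤ 1 := by
    show _ ∈ v.integer
    aesop
  have h2 : v (y + (W.a₁ * x + W.a₃)) = v y :=
    Valuation.map_add_eq_of_lt_left _ (lt_of_le_of_lt hc hy)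
  rw [map_mul, h2] at h1
  have h4 : 1 < v y * v y := by
    calc (1 : Γ₀) = 1 * 1 := (mul_one 1).symm
      _ < v y * v y := mul_lt_mul'' hy hy zero_le_one zero_le_one
  exact absurd h1 (not_le.2 h4)

end S05H5
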