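/-
S05: concrete assembly over `AlgebraicClosure ℚ`: an inertia element at a prime `q ≠ 2, p`
fixes every `p`-torsion point of a Weierstrass curve over `ℚ` satisfying the (good or nodal)
hypotheses which hold for the Frey curve.
-/
import Mathlib
import Fermat.Prelude.Def_FLTPrelim_Ramification
import Fermat.Agent.S05.H5.Inertia
import Fermat.Agent.S05.H5.IntVal
import Fermat.Agent.S05.H5.Galois
import Fermat.Agent.S05.H65.Translate
import Fermat.Agent.S05.H75.ZPoint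

set_option autoImplicit false

namespace S05H5

open WeierstrassCurve WeierstrassCurve.Affine WeierstrassCurve.Affine.Point S05H65 S05H75

section

variable {K : Type*} [Field K] [DecidableEq K] [Algebra ℚ K] [IsAlgClosed K] [CharZero K]

/-- The hypotheses on a rational Weierstrass curve `E` at a valuation `v` that make the
`n`-torsion unramified: either good reduction, or the nodal normal form with `v d = v e ^ n`. -/
def GoodOrNodal {Γ₀ : Type*} [LinearOrderedCommGroupWithZero Γ₀] (v : Valuation K Γ₀)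
    (E : WeierstrassCurve ℚ) (n : ℕ) : Prop :=
  (¬ v (E⁄K).Δ < 1) ∨
    ∃ s d b e : ℚ,
      (E⁄K).b₂ = algebraMap ℚ K b - 3 * algebraMap ℚ K s ∧
      8 * (E⁄K).b₄ = 3 * algebraMap ℚ K s ^ 2 - 2 * algebraMap ℚ K s * algebraMap ℚ K b
        - algebraMap ℚ K d ^ 2 ∧
      16 * (E⁄K).b₆ = (algebraMap ℚ K s ^ 2 - algebraMap ℚ K d ^ 2) *
        (algebraMap ℚ K b - algebraMap ℚ K s) ∧
      v (algebraMap ℚ K b) = 1 ∧ v (algebraMap ℚ K s) ≤ 1 ∧
      v (algebraMap ℚ K d) = v (algebraMap ℚ K e) ^ n ∧ v (algebraMap ℚ K e) < 1 ∧ e ≠ 0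

/-- Abstract assembly: a `ℚ`-automorphism acting trivially modulo the maximal ideal fixes the
`n`-torsion points. -/
theorem map_eq_self_of_goodOrNodal {Γ₀ : Type*} [LinearOrderedCommGroupWithZero Γ₀]
    (v : Valuation K Γ₀) (E : WeierstrassCurve ℚ)
    (ha₁ : v (E⁄K).a₁ ≤ 1) (ha₂ : v (E⁄K).a₂ ≤ 1) (ha₃ : v (E⁄K).a₃ ≤ 1)
    (ha₄ : v (E⁄K).a₄ ≤ 1) (ha₆ : v (E⁄K).a₆ ≤ 1) (hΔ : (E⁄K).Δ ≠ 0)
    {n : ℕ} (hodd : Odd n) (hn : v (n : K) = 1) (h2 : v (2 : K) = 1)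
    (hE : GoodOrNodal v E n)
    (σ : K →ₐ[ℚ] K) (hσ : ∀ a : K, v a ≤ 1 → v (σ a - a) < 1)
    (hσ' : ∀ a : K, 1 < v a → 1 < v (σ a))
    (X : (E⁄K).Point) (hX : n • X = 0) : Point.map σ X = X := by
  rcases hE with hgood | ⟨s, d, b, e, hb₂, hb₄, hb₆, hvb, hvs, hvd, hve, he0⟩
  · exact map_eq_self_of_good_reduction v E ha₁ ha₂ ha₃ ha₄ ha₆ hgood σ hσ hn X hX
  · have he0' : algebraMap ℚ K e ≠ 0 := by
      rw [Ne, map_eq_zero]; exact he0
    have hn0 : 0 < n := hodd.pos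
    have hvd1 : v (algebraMap ℚ K d) < 1 := by
      rw [hvd]
      exact pow_lt_one₀ zero_le hve hn0.ne'
    refine map_eq_self_of_nodal v E ha₁ ha₂ ha₃ ha₄ ha₆ (algebraMap ℚ K s) (algebraMap ℚ K d)
      (algebraMap ℚ K b) hb₂ hb₄ hb₆ hvs hvd1 σ hσ hσ' hn X hX ?_
    intro hξ hX0
    obtain ⟨M, hM0, hMn, hM⟩ := nodal_translate v (E⁄K) (algebraMap ℚ K s) (algebraMap ℚ K d)
      (algebraMap ℚ K b) (algebraMap ℚ K e) n ⟨hb₂, hb₄, hb₆⟩ h2 hvb hvd hve he0' hodd X hX0 hX hξ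
    have hfix : ∀ r : ℚ, (σ : K →+* K) (algebraMap ℚ K r) = algebraMap ℚ K r :=
      fun r => σ.commutes r
    obtain ⟨x, y, h, hx, hσx, hσy⟩ := exists_fixed_point_with_xi v (E⁄K) hΔ
      (algebraMap ℚ K s) (algebraMap ℚ K d) (algebraMap ℚ K b) (algebraMap ℚ K e)
      hb₂ hb₄ hb₆ h2 hvb hvd hve he0' (σ : K →+* K) hσ
      (hfix _) (hfix _) (hfix s) (hfix e) (by rw [← map_pow]; exact hfix _) (hfix b) hM0 hMn
    refine ⟨Point.some x y h, ?_, ?_⟩
    · rw [Point.map_some]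
      congr 1
    · exact hM (Point.some x y h) (Point.some_ne_zero h) hx

end

end S05H5
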